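import Mathlib
import Fermat.Prelude.Def_ModularForm_HeckeOperator
import Fermat.Prelude.Def_FLTPrelim_Modularity
import Fermat.Agent.S20.Core

/-!
# S16 (Mazur, Eisenstein ideal index): shared definitions — FROZEN INTERFACE (owner helper556)

Function-level conventions (as in `Fermat.Agent.S20.Core`):
* `MF Γ k`, `SF Γ k` (from S20.Core): weight `k` modular / cusp forms for `Γ ≤ SL(2,ℤ)`,
  as submodules of `ℍ → ℂ`.
* `ModularFormClass.qCoeff f n` (Prelude): `n`-th coefficient of the `q`-expansion at `∞` (period 1).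
* `ModularForm.heckeU k p f` (Prelude): `U_p`, i.e. `a_n ↦ a_{pn}`.

New here:
* `sigmaP p k`  : sum of the divisors of `k` prime to `p`.
* `IntFrom1 f`  : all `q`-coefficients of index `≥ 1` are integers.
* `IntAll f`    : all `q`-coefficients are integers.
* `frickeGL p`  : the Fricke matrix `[[0,-1],[p,0]] ∈ GL₂(ℝ)`.
* `hat p k F`   : `F^(z) = z^{-k} F(-1/(pz))`  ( `= p • F ∣[k] frickeGL p` ), multiplicative in `F`.
* `Vp p F`      : `F(pz)`.
* `tr p k F`    : trace to level one `F + p^{1-k} U_p (F^)`  ( `= F + ∑_{j<p} F ∣[k] S T^j` ).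
-/

set_option autoImplicit false

noncomputable section

namespace Fermat.Agent.S16

open UpperHalfPlane ModularForm CongruenceSubgroup MatrixGroups
open scoped Manifold

/-- Sum of the divisors of `k` which are prime to `p`. -/
def sigmaP (p k : ℕ) : ℕ := ∑ d ∈ k.divisors with ¬ p ∣ d, d

/-- All `q`-coefficients of index `≥ 1` are integers. -/
def IntFrom1 (f : ℍ → ℂ) : Prop :=
  ∀ k : ℕ, 1 ≤ k → ∃ m : ℤ, ModularFormClass.qCoeff f k = (m : ℂ)

/-- All `q`-coefficients are integers. -/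
def IntAll (f : ℍ → ℂ) : Prop :=
  ∀ k : ℕ, ∃ m : ℤ, ModularFormClass.qCoeff f k = (m : ℂ)

/-- The Fricke matrix `[[0,-1],[p,0]]`. -/
def frickeGL (p : ℕ) : GL (Fin 2) ℝ :=
  if hp : p = 0 then 1 else
    Matrix.GeneralLinearGroup.mkOfDetNeZero !![0, -1; (p : ℝ), 0]
      (by rw [Matrix.det_fin_two_of]; simpa using hp)

/-- `F^ = p • (F ∣[k] W_p)`, i.e. `F^(z) = z^{-k} F(-1/(pz))`. -/
def hat (p : ℕ) (k : ℤ) (F : ℍ → ℂ) : ℍ → ℂ := (p : ℂ) • (F ∣[k] frickeGL p)

/-- `V_p F (z) = F (p z)`. -/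
def Vp (p : ℕ) (F : ℍ → ℂ) : ℍ → ℂ := fun z => F (heckeDiagMatrix p • z)

/-- Trace from `Γ₀(p)` to level one: `F + p^{1-k} U_p (F^)`. -/
def tr (p : ℕ) (k : ℤ) (F : ℍ → ℂ) : ℍ → ℂ :=
  F + ((p : ℂ) ^ (1 - k)) • heckeU k p (hat p k F)

end Fermat.Agent.S16
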