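import Fermat.Agent.S16.Defs

/-!
# S16: interface predicates and theta definitions — FROZEN INTERFACE (owner helper556)

These are the definitions used by the statements of the S16 skeleton
(`origin/helper556:Fermat/Agent/S16/Skeleton.lean`).
-/

set_option autoImplicit false

noncomputable section

namespace Fermat.Agent.S16

open UpperHalfPlane ModularForm CongruenceSubgroup MatrixGroups ModularFormClass
open Fermat.Agent.S20 (MF SF)
open scoped Manifold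

/-- (E) the Eisenstein series `e = (p E₂(pz) - E₂(z))/24`. -/
def HasEis (p : ℕ) : Prop :=
  ∃ e ∈ MF (Gamma0 p) 2, qCoeff e 0 = ((p : ℂ) - 1) / 24 ∧
    ∀ k : ℕ, 1 ≤ k → qCoeff e k = (sigmaP p k : ℂ)

/-- (C) a weight 2 form on `Γ₀(p)` with vanishing constant term at `∞` is a cusp form. -/
def CuspCrit (p : ℕ) : Prop :=
  ∀ G ∈ MF (Gamma0 p) 2, qCoeff G 0 = 0 → G ∈ SF (Gamma0 p) 2

/-- (UB) integrality of the higher coefficients bounds the denominator of the constant term. -/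
def UpperBound (p : ℕ) : Prop :=
  ∀ G ∈ MF (Gamma0 p) 2, IntFrom1 G →
    ∃ m : ℤ, 24 * qCoeff G 0 = (Nat.gcd (p - 1) 12 : ℂ) * (m : ℂ)

/-- (LB) there is a form with constant term `1/2` and integral higher coefficients. -/
def LowerBound (p : ℕ) : Prop :=
  ∃ G ∈ MF (Gamma0 p) 2, qCoeff G 0 = 1 / 2 ∧ IntFrom1 G

/-- Even positive definite quaternary lattice of determinant `p²` and level `p`
(`B = p A⁻¹`). -/
structure IsGoodLattice (p : ℕ) (A B : Matrix (Fin 4) (Fin 4) ℤ) : Prop where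
  symm : A.IsSymm
  even : ∀ i, Even (A i i)
  posDef : (A.map (Int.cast : ℤ → ℝ)).PosDef
  mul_eq : A * B = (p : ℤ) • (1 : Matrix (Fin 4) (Fin 4) ℤ)
  even' : ∀ i, Even (B i i)
  det_eq : A.det = (p : ℤ) ^ 2

/-- The Ibukiyama-type Gram matrix (norm form of a maximal order of the quaternion algebra
ramified at `p, ∞`); here `r² + p = q t`, `q ≡ 3 mod 4`. -/
def ibuA (p q r t : ℤ) : Matrix (Fin 4) (Fin 4) ℤ :=
  !![2, 1, 0, 0; 1, (1 + q) / 2, 0, r; 0, 0, p * ((1 + q) / 2), p; 0, r, p, 2 * t]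

/-- quadratic form `xᵀ A x` -/
def qf (A : Matrix (Fin 4) (Fin 4) ℤ) (x : Fin 4 → ℤ) : ℤ := x ⬝ᵥ A.mulVec x

/-- Theta series with characteristic `A⁻¹ y = B y / p`:
`Θ_y(z) = ∑_x exp(πi z (xᵀAx + 2 xᵀy + yᵀBy/p))`. -/
def thetaChar (p : ℕ) (A B : Matrix (Fin 4) (Fin 4) ℤ) (y : Fin 4 → ℤ) (z : ℍ) : ℂ :=
  ∑' x : Fin 4 → ℤ,
    Complex.exp (Real.pi * Complex.I * z *
      ((qf A x : ℂ) + 2 * ((x ⬝ᵥ y : ℤ) : ℂ) + (qf B y : ℂ) / p))

/-- The theta series `θ_A(z) = ∑_x exp(πi z xᵀAx)`. -/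
def thetaFun (A : Matrix (Fin 4) (Fin 4) ℤ) (z : ℍ) : ℂ :=
  ∑' x : Fin 4 → ℤ, Complex.exp (Real.pi * Complex.I * z * (qf A x : ℂ))

/-- The inversion (Poisson summation) property of the pair `(A, B)`, `B = p A⁻¹`. -/
def ThetaInv (p : ℕ) (A B : Matrix (Fin 4) (Fin 4) ℤ) : Prop :=
  ∀ (y : Fin 4 → ℤ) (z : ℍ), thetaChar p A B y (ModularGroup.S • z) =
    -(z : ℂ) ^ 2 / p * ∑' w : Fin 4 → ℤ,
      Complex.exp (Real.pi * Complex.I * z * ((qf B w : ℂ) / p) +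
        2 * Real.pi * Complex.I * (((w ⬝ᵥ B.mulVec y : ℤ) : ℂ) / p))

end Fermat.Agent.S16
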